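import Mathlib.Analysis.SpecialFunctions.Log.Basic
import Mathlib.Analysis.SpecialFunctions.Trigonometric.Basic
import Mathlib.Topology.Algebra.Group.Matrix
import Mathlib.Topology.Algebra.Ring.Real
import Mathlib.Topology.Order.IntermediateValue

/-!
# The decomposition `K A K` of `SL(2, ℝ)`
-/

set_option autoImplicit false

noncomputable section

open Matrix Filter Topology
open scoped MatrixGroups

namespace FA.HoweMoore

/-- The element with the given entries. -/
def mk2 (a b c d : ℝ) (h : a * d - b * c = 1) : SL(2, ℝ) :=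
  ⟨!![a, b; c, d], by rw [det_fin_two_of]; exact h⟩

@[simp] theorem mk2_coe (a b c d : ℝ) (h : a * d - b * c = 1) :
    ((mk2 a b c d h : SL(2, ℝ)) : Matrix (Fin 2) (Fin 2) ℝ) = !![a, b; c, d] := rfl

theorem ext2 {g h : SL(2, ℝ)} (h00 : g 0 0 = h 0 0) (h01 : g 0 1 = h 0 1) (h10 : g 1 0 = h 1 0)
    (h11 : g 1 1 = h 1 1) : g = h := by
  ext i j
  fin_cases i <;> fin_cases j <;> assumption

theorem det2 (g : SL(2, ℝ)) : g 0 0 * g 1 1 - g 0 1 * g 1 0 = 1 := by
  have := g.prop
  rwa [det_fin_two] at this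

theorem mul_apply2 (g h : SL(2, ℝ)) (i j : Fin 2) :
    (g * h) i j = g i 0 * h 0 j + g i 1 * h 1 j := by
  rw [SpecialLinearGroup.coe_mul, Matrix.mul_apply, Fin.sum_univ_two]

/-- The upper unipotent element. -/
def upperU (s : ℝ) : SL(2, ℝ) := mk2 1 s 0 1 (by ring)

/-- The lower unipotent element. -/
def lowerU (s : ℝ) : SL(2, ℝ) := mk2 1 0 s 1 (by ring)

/-- The diagonal element `diag (e ^ t, e ^ (-t))`. -/
def diagA (t : ℝ) : SL(2, ℝ) :=
  mk2 (Real.exp t) 0 0 (Real.exp (-t)) (by rw [← Real.exp_add]; simp)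

theorem continuous_mk2 {Y : Type*} [TopologicalSpace Y] {a b c d : Y → ℝ} (ha : Continuous a)
    (hb : Continuous b) (hc : Continuous c) (hd : Continuous d)
    (h : ∀ y, a y * d y - b y * c y = 1) :
    Continuous fun y => mk2 (a y) (b y) (c y) (d y) (h y) := by
  refine Continuous.subtype_mk (continuous_pi fun i => continuous_pi fun j => ?_) _
  fin_cases i <;> fin_cases j <;> simpa

theorem continuous_upperU : Continuous upperU :=
  continuous_mk2 continuous_const continuous_id continuous_const continuous_const _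

theorem continuous_lowerU : Continuous lowerU :=
  continuous_mk2 continuous_const continuous_const continuous_id continuous_const _

theorem continuous_diagA : Continuous diagA :=
  continuous_mk2 Real.continuous_exp continuous_const continuous_const
    (Real.continuous_exp.comp continuous_neg) _

theorem upperU_zero : upperU 0 = 1 := by apply ext2 <;> simp [upperU]

theorem lowerU_zero : lowerU 0 = 1 := by apply ext2 <;> simp [lowerU]

theorem upperU_inv (s : ℝ) : (upperU s)⁻¹ = upperU (-s) :=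
  inv_eq_of_mul_eq_one_right (by apply ext2 <;> simp [upperU])

theorem lowerU_inv (s : ℝ) : (lowerU s)⁻¹ = lowerU (-s) :=
  inv_eq_of_mul_eq_one_right (by apply ext2 <;> simp [lowerU])

theorem diagA_inv (t : ℝ) : (diagA t)⁻¹ = diagA (-t) :=
  inv_eq_of_mul_eq_one_right (by apply ext2 <;> simp [diagA, ← Real.exp_add])

theorem upperU_mul_diagA (s t : ℝ) :
    upperU s * diagA t = diagA t * upperU (s * Real.exp (-(2 * t))) := by
  have h : Real.exp t * (s * Real.exp (-(2 * t))) = s * Real.exp (-t) := by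
    rw [mul_left_comm, ← Real.exp_add]
    ring_nf
  apply ext2 <;> simp [upperU, diagA, h]

theorem diagA_mul_lowerU (s t : ℝ) :
    diagA t * lowerU s = lowerU (s * Real.exp (-(2 * t))) * diagA t := by
  have h : s * Real.exp (-(2 * t)) * Real.exp t = Real.exp (-t) * s := by
    rw [mul_assoc, ← Real.exp_add, mul_comm]
    ring_nf
  apply ext2 <;> simp [lowerU, diagA, h]

/-- The rotations. -/
def rotations : Set SL(2, ℝ) := {g | g 1 1 = g 0 0 ∧ g 1 0 = -g 0 1}

theorem isCompact_rotations : IsCompact rotations := by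
  set C : Set (Matrix (Fin 2) (Fin 2) ℝ) := {M | M 1 1 = M 0 0 ∧ M 1 0 = -M 0 1} ∩
    Set.univ.pi fun _ => Set.univ.pi fun _ => Set.Icc (-1 : ℝ) 1 with hCdef
  have hC : IsCompact C := by
    refine (isCompact_univ_pi fun _ => isCompact_univ_pi fun _ => isCompact_Icc).inter_left ?_
    exact (isClosed_eq (by fun_prop) (by fun_prop)).inter (isClosed_eq (by fun_prop) (by fun_prop))
  have heq : rotations = (fun g : SL(2, ℝ) => (g : Matrix (Fin 2) (Fin 2) ℝ)) ⁻¹' C := by
    refine Set.ext fun g => ⟨fun hg => ⟨hg, fun i _ j _ => ?_⟩, fun hg => hg.1⟩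
    have hdet := det2 g
    obtain ⟨h1, h2⟩ := hg
    rw [h1, h2] at hdet
    have ha : |g 0 0| ≤ 1 := abs_le_one_iff_mul_self_le_one.2 (by nlinarith [sq_nonneg (g 0 1)])
    have hb : |g 0 1| ≤ 1 := abs_le_one_iff_mul_self_le_one.2 (by nlinarith [sq_nonneg (g 0 0)])
    refine Set.mem_Icc.2 (abs_le.1 ?_)
    fin_cases i <;> fin_cases j <;> simp [h1, h2, ha, hb]
  rw [heq]
  exact SpecialLinearGroup.isClosedEmbedding_val.isCompact_preimage hC

theorem rotations_inv {k : SL(2, ℝ)} (hk : k ∈ rotations) : k⁻¹ ∈ rotations := by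
  obtain ⟨h1, h2⟩ := hk
  simp [rotations, SpecialLinearGroup.SL2_inv_expl, h1, h2]

theorem rotations_mul {k l : SL(2, ℝ)} (hk : k ∈ rotations) (hl : l ∈ rotations) :
    k * l ∈ rotations := by
  obtain ⟨h1, h2⟩ := hk
  obtain ⟨h3, h4⟩ := hl
  constructor <;> simp only [mul_apply2, h1, h2, h3, h4] <;> ring

/-- The quarter turn. -/
def quarter : SL(2, ℝ) := mk2 0 1 (-1) 0 (by ring)

theorem quarter_mem : quarter ∈ rotations := by simp [rotations, quarter]

theorem diagA_eq_quarter (t : ℝ) : diagA t = quarter * diagA (-t) * quarter⁻¹ := by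
  rw [eq_mul_inv_iff_mul_eq]
  apply ext2 <;> simp [diagA, quarter]

/-- **The decomposition `K A⁺ K`.** -/
theorem exists_kak (g : SL(2, ℝ)) :
    ∃ k ∈ rotations, ∃ t : ℝ, 0 ≤ t ∧ ∃ l ∈ rotations, g = k * diagA t * l := by
  suffices h : ∃ k ∈ rotations, ∃ t : ℝ, ∃ l ∈ rotations, g = k * diagA t * l by
    obtain ⟨k, hk, t, l, hl, rfl⟩ := h
    rcases le_total 0 t with ht | ht
    · exact ⟨k, hk, t, ht, l, hl, rfl⟩
    · refine ⟨k * quarter, rotations_mul hk quarter_mem, -t, neg_nonneg.2 ht, quarter⁻¹ * l,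
        rotations_mul (rotations_inv quarter_mem) hl, ?_⟩
      rw [diagA_eq_quarter t]
      group
  -- a rotation making the columns orthogonal
  set f : ℝ → ℝ := fun θ =>
    (g 0 0 * Real.cos θ + g 0 1 * Real.sin θ) * (g 0 1 * Real.cos θ - g 0 0 * Real.sin θ) +
    (g 1 0 * Real.cos θ + g 1 1 * Real.sin θ) * (g 1 1 * Real.cos θ - g 1 0 * Real.sin θ) with hf
  have hf' : f (0 + Real.pi / 2) = -f 0 := by simp [hf]; ring
  rw [zero_add] at hf'
  obtain ⟨θ, hθ⟩ : ∃ θ, f θ = 0 := by
    have hc : Continuous f := by fun_prop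
    rcases le_total (f 0) 0 with h | h
    · exact intermediate_value_univ 0 (Real.pi / 2) hc ⟨h, by linarith⟩
    · exact intermediate_value_univ (Real.pi / 2) 0 hc ⟨by linarith, h⟩
  set a := g 0 0 * Real.cos θ + g 0 1 * Real.sin θ with ha
  set c := g 1 0 * Real.cos θ + g 1 1 * Real.sin θ with hc
  set b := g 0 1 * Real.cos θ - g 0 0 * Real.sin θ with hb
  set e := g 1 1 * Real.cos θ - g 1 0 * Real.sin θ with he
  have hdet : a * e - b * c = 1 := by
    rw [ha, hb, hc, he]
    linear_combination (Real.cos θ ^ 2 + Real.sin θ ^ 2) * det2 g + Real.sin_sq_add_cos_sq θ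
  have horth : a * b + c * e = 0 := hθ
  have hpos : 0 < a ^ 2 + c ^ 2 := by
    rcases eq_or_ne a 0 with h | h
    · have hc0 : c ≠ 0 := by rintro h'; rw [h, h'] at hdet; linarith
      positivity
    · positivity
  set r := Real.sqrt (a ^ 2 + c ^ 2) with hr
  have hr0 : 0 < r := Real.sqrt_pos.2 hpos
  have hr2 : r ^ 2 = a ^ 2 + c ^ 2 := Real.sq_sqrt hpos.le
  have hb' : b * r ^ 2 = -c := by rw [hr2]; linear_combination a * horth - c * hdet
  have he' : e * r ^ 2 = a := by rw [hr2]; linear_combination c * horth + a * hdet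
  refine ⟨mk2 (a / r) (-c / r) (c / r) (a / r) (by field_simp; linarith), ⟨rfl, ?_⟩, Real.log r,
    mk2 (Real.cos θ) (Real.sin θ) (-Real.sin θ) (Real.cos θ)
      (by linear_combination Real.sin_sq_add_cos_sq θ), ⟨rfl, rfl⟩, ?_⟩
  · simp [neg_div]
  have hsc := Real.sin_sq_add_cos_sq θ
  have hbv : b = -c / r ^ 2 := (eq_div_iff (by positivity)).2 hb'
  have hev : e = a / r ^ 2 := (eq_div_iff (by positivity)).2 he'
  have e00 : g 0 0 = a * Real.cos θ - -c / r ^ 2 * Real.sin θ := by
    rw [← hbv, ha, hb]; linear_combination -(g 0 0) * hsc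
  have e01 : g 0 1 = a * Real.sin θ + -c / r ^ 2 * Real.cos θ := by
    rw [← hbv, ha, hb]; linear_combination -(g 0 1) * hsc
  have e10 : g 1 0 = c * Real.cos θ - a / r ^ 2 * Real.sin θ := by
    rw [← hev, hc, he]; linear_combination -(g 1 0) * hsc
  have e11 : g 1 1 = c * Real.sin θ + a / r ^ 2 * Real.cos θ := by
    rw [← hev, hc, he]; linear_combination -(g 1 1) * hsc
  apply ext2 <;> simp only [mul_apply2, mk2_coe, diagA, of_apply, cons_val', cons_val_zero,
    cons_val_one, cons_val_fin_one, Real.exp_log hr0, Real.exp_neg, e00, e01, e10, e11] <;>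
    field_simp <;> ring

end FA.HoweMoore
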