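import Fermat.Agent.HoweMoore.Main
import Mathlib.Dynamics.Ergodic.Action.Basic
import Mathlib.MeasureTheory.Function.L2Space
import Mathlib.MeasureTheory.Function.LpSpace.DomAct.Continuous

/-!
# Ergodic actions of `SL(2, ℝ)` are mixing
-/

set_option autoImplicit false

noncomputable section

open Matrix Filter Topology MeasureTheory
open scoped MatrixGroups InnerProductSpace Pointwise ENNReal

namespace FA.HoweMoore

theorem inner_indicatorConstLp_const {α : Type*} [MeasurableSpace α] {μ : Measure α}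
    [IsFiniteMeasure μ] {s : Set α} (hs : MeasurableSet s) (a c : ℝ) :
    ⟪indicatorConstLp 2 hs (measure_ne_top μ s) a, Lp.const 2 μ c⟫_ℝ = μ.real s * (a * c) := by
  rw [← indicatorConstLp_univ, L2.inner_indicatorConstLp_indicatorConstLp]
  simp [mul_comm]

theorem inner_const_const {α : Type*} [MeasurableSpace α] {μ : Measure α} [IsProbabilityMeasure μ]
    (a c : ℝ) : ⟪Lp.const 2 μ a, Lp.const 2 μ c⟫_ℝ = a * c := by
  have e : indicatorConstLp 2 MeasurableSet.univ (measure_ne_top μ Set.univ) a = Lp.const 2 μ a :=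
    indicatorConstLp_univ 2 μ a
  rw [← e, inner_indicatorConstLp_const]
  simp

variable {X : Type*} [TopologicalSpace X] [MeasurableSpace X] [BorelSpace X]
  [MulAction SL(2, ℝ) X] [ContinuousSMul SL(2, ℝ) X] {μ : Measure X}

/-- The representation on square integrable functions. -/
def koopman (μ : Measure X) [SMulInvariantMeasure SL(2, ℝ) X μ] :
    SL(2, ℝ) →* (Lp ℝ 2 μ ≃ₗᵢ[ℝ] Lp ℝ 2 μ) where
  toFun g := ⟨DistribMulAction.toLinearEquiv ℝ (Lp ℝ 2 μ) (DomMulAct.mk g⁻¹),
    fun f => DomMulAct.norm_smul_Lp _ f⟩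
  map_one' := LinearIsometryEquiv.ext fun f => by
    show DomMulAct.mk (1 : SL(2, ℝ))⁻¹ • f = f
    rw [inv_one, DomMulAct.mk_one, one_smul]
  map_mul' g h := LinearIsometryEquiv.ext fun f => by
    show DomMulAct.mk (g * h)⁻¹ • f = DomMulAct.mk g⁻¹ • DomMulAct.mk h⁻¹ • f
    rw [_root_.mul_inv_rev, DomMulAct.mk_mul, mul_smul]

theorem koopman_apply [SMulInvariantMeasure SL(2, ℝ) X μ] (g : SL(2, ℝ)) (f : Lp ℝ 2 μ) :
    koopman μ g f = DomMulAct.mk g⁻¹ • f := rfl

theorem continuous_koopman [R1Space X] [SMulInvariantMeasure SL(2, ℝ) X μ] [IsFiniteMeasure μ]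
    [μ.InnerRegularCompactLTTop] (f : Lp ℝ 2 μ) : Continuous fun g => koopman μ g f := by
  let : MeasurableSpace SL(2, ℝ) := borel _
  have : BorelSpace SL(2, ℝ) := ⟨rfl⟩
  have : Fact ((2 : ℝ≥0∞) ≠ ⊤) := ⟨by simp⟩
  simp only [koopman_apply]
  exact (DomMulAct.continuous_mk.comp continuous_inv).smul continuous_const

/-- The fixed functions of an ergodic action are constant. -/
theorem exists_eq_const_of_fixed [IsFiniteMeasure μ] [ErgodicSMul SL(2, ℝ) X μ] {f : Lp ℝ 2 μ}
    (hf : ∀ g, koopman μ g f = f) : ∃ c : ℝ, f = Lp.const 2 μ c := by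
  have hm : Measurable (f : X → ℝ) := (Lp.stronglyMeasurable f).measurable
  obtain ⟨c, hc⟩ := exists_eventuallyEq_const_of_forall_separating (l := ae μ)
    (f := (f : X → ℝ)) MeasurableSet fun U hU => by
      refine eventuallyConst_set.1 (ErgodicSMul.aeconst_of_forall_preimage_smul_ae_eq
        (G := SL(2, ℝ)) (hm hU) fun g => ?_)
      have h := DomMulAct.smul_Lp_ae_eq (DomMulAct.mk g) f
      have h0 := hf g⁻¹
      rw [koopman_apply, inv_inv] at h0
      rw [h0] at h
      filter_upwards [h] with x hx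
      simp only [Equiv.symm_apply_apply] at hx
      exact propext ⟨fun hm => by show f x ∈ U; rw [hx]; exact hm,
        fun hm => by show f (g • x) ∈ U; rw [← hx]; exact hm⟩
  exact ⟨c, Lp.ext (hc.trans (Lp.coeFn_const (μ := μ) (p := 2) c).symm)⟩

/-- **Ergodic actions of `SL(2, ℝ)` are mixing.** -/
theorem tendsto_measureReal_inter [R1Space X] [IsProbabilityMeasure μ] [μ.InnerRegularCompactLTTop]
    [ErgodicSMul SL(2, ℝ) X μ] {A B : Set X} (hA : MeasurableSet A) (hB : MeasurableSet B) :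
    Tendsto (fun g : SL(2, ℝ) => μ.real (A ∩ g • B)) (cocompact SL(2, ℝ))
      (𝓝 (μ.real A * μ.real B)) := by
  set v : Lp ℝ 2 μ := indicatorConstLp 2 hB (measure_ne_top μ B) (1 : ℝ) -
    Lp.const 2 μ (μ.real B) with hv
  have hperp : ∀ z, (∀ g, koopman μ g z = z) → ⟪v, z⟫_ℝ = 0 := by
    intro z hz
    obtain ⟨c, rfl⟩ := exists_eq_const_of_fixed hz
    rw [hv, inner_sub_left, inner_indicatorConstLp_const, inner_const_const]
    ring
  have h := tendsto_inner_cocompact (koopman μ) continuous_koopman hperp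
    (indicatorConstLp 2 hA (measure_ne_top μ A) (1 : ℝ))
  have e : ∀ g : SL(2, ℝ), ⟪koopman μ g v, indicatorConstLp 2 hA (measure_ne_top μ A) (1 : ℝ)⟫_ℝ =
      μ.real (A ∩ g • B) - μ.real A * μ.real B := by
    intro g
    rw [hv, map_sub, koopman_apply, koopman_apply, DomMulAct.mk_smul_indicatorConstLp,
      DomMulAct.smul_Lp_const, inner_sub_left, L2.inner_indicatorConstLp_indicatorConstLp,
      real_inner_comm (indicatorConstLp 2 hA (measure_ne_top μ A) (1 : ℝ)),
      inner_indicatorConstLp_const]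
    simp [Set.inter_comm, Set.preimage_smul_inv]
  simp only [e] at h
  simpa using h.add_const (μ.real A * μ.real B)

end FA.HoweMoore
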