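import Fermat.Agent.HoweMoore.Group
import Mathlib.Analysis.InnerProductSpace.Dual

/-!
# The theorem of Howe and Moore for `SL(2, ℝ)`

A weak limit of `π (diagA t) v` as `t → ∞` is fixed by the upper unipotents, hence by everything
(Mautner's phenomenon), hence is zero if `v` is orthogonal to the fixed vectors.
-/

set_option autoImplicit false

noncomputable section

open Matrix Filter Topology
open scoped MatrixGroups InnerProductSpace

namespace FA.HoweMoore

variable {𝕜 H : Type*} [RCLike 𝕜] [NormedAddCommGroup H] [InnerProductSpace 𝕜 H]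
variable (π : SL(2, ℝ) →* (H ≃ₗᵢ[𝕜] H))

theorem rep_mul_apply (g h : SL(2, ℝ)) (v : H) : π (g * h) v = π g (π h v) := by
  rw [map_mul]; rfl

theorem rep_one_apply (v : H) : π 1 v = v := by rw [map_one]; rfl

theorem inner_rep (g : SL(2, ℝ)) (v w : H) : ⟪π g v, w⟫_𝕜 = ⟪v, π g⁻¹ w⟫_𝕜 := by
  rw [← LinearIsometryEquiv.inner_map_map (π g⁻¹), ← rep_mul_apply, inv_mul_cancel,
    rep_one_apply]

theorem rep_eq_of_inner_eq {g : SL(2, ℝ)} {z : H} (h : ⟪π g z, z⟫_𝕜 = ⟪z, z⟫_𝕜) :
    π g z = z := by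
  rw [← sub_eq_zero, ← norm_eq_zero, ← sq_eq_zero_iff, @norm_sub_sq 𝕜, h,
    LinearIsometryEquiv.norm_map, inner_self_eq_norm_sq]
  ring

/-- **The Mautner phenomenon.** A vector fixed by the upper unipotents is fixed by `SL(2, ℝ)`. -/
theorem fixed_of_fixed_upperU (hπ : ∀ v, Continuous fun g => π g v) {z : H}
    (hz : ∀ s, π (upperU s) z = z) (g : SL(2, ℝ)) : π g z = z := by
  set φ : SL(2, ℝ) → 𝕜 := fun g => ⟪π g z, z⟫_𝕜 with hφ
  have hcont : Continuous φ := (hπ z).inner continuous_const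
  have hone : φ 1 = ⟪z, z⟫_𝕜 := by simp only [hφ, rep_one_apply]
  have hleft : ∀ s g, φ (upperU s * g) = φ g := fun s g => by
    simp only [hφ, rep_mul_apply]
    rw [inner_rep π (upperU s), upperU_inv, hz]
  have hright : ∀ s g, φ (g * upperU s) = φ g := fun s g => by
    simp only [hφ, rep_mul_apply, hz]
  -- the diagonal is reached from the double cosets of small lower left entry
  have hdiag : ∀ t, π (diagA t) z = z := by
    intro t
    refine rep_eq_of_inner_eq π ?_
    set L := Real.exp t with hL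
    set G : ℝ → SL(2, ℝ) := fun c => mk2 L 0 c (1 / L)
      (by rw [mul_one_div_cancel (Real.exp_pos t).ne', zero_mul, sub_zero]) with hG
    have hGc : Continuous G :=
      continuous_mk2 continuous_const continuous_const continuous_id continuous_const _
    have heq : ∀ c, c ≠ 0 → φ (G c) = φ (lowerU c) := by
      intro c hc
      have hL0 : L ≠ 0 := (Real.exp_pos t).ne'
      rw [← hleft ((1 - L) / c), ← hright (-((1 - L) / c / L))]
      congr 1
      apply ext2 <;> simp [mul_apply2, G, upperU, lowerU] <;> field_simp <;> ring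
    have h1 : Tendsto (fun c => φ (G c)) (𝓝[≠] 0) (𝓝 (φ (G 0))) :=
      ((hcont.comp hGc).tendsto 0).mono_left nhdsWithin_le_nhds
    have h2 : Tendsto (fun c => φ (lowerU c)) (𝓝[≠] 0) (𝓝 (φ (lowerU 0))) :=
      ((hcont.comp continuous_lowerU).tendsto 0).mono_left nhdsWithin_le_nhds
    have h3 : φ (G 0) = φ (lowerU 0) := tendsto_nhds_unique
      (h1.congr' (eventually_nhdsWithin_of_forall (s := {(0 : ℝ)}ᶜ) fun c hc => heq c hc)) h2
    rw [lowerU_zero, hone, show G 0 = diagA t by
      apply ext2 <;> simp [G, diagA, hL, Real.exp_neg]] at h3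
    exact h3
  have hlower : ∀ s, π (lowerU s) z = z := by
    intro s
    refine rep_eq_of_inner_eq π ?_
    have heq : ∀ t, φ (lowerU (s * Real.exp (-(2 * t)))) = φ (lowerU s) := by
      intro t
      have h : lowerU (s * Real.exp (-(2 * t))) = diagA t * lowerU s * (diagA t)⁻¹ :=
        eq_mul_inv_of_mul_eq (diagA_mul_lowerU s t).symm
      simp only [hφ, h, rep_mul_apply, diagA_inv, hdiag]
      rw [inner_rep π (diagA t), diagA_inv, hdiag]
    have hlim : Tendsto (fun t : ℝ => s * Real.exp (-(2 * t))) atTop (𝓝 0) := by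
      simpa using ((Real.tendsto_exp_atBot.comp (tendsto_neg_atTop_atBot.comp
        (tendsto_id.const_mul_atTop two_pos))).const_mul s)
    have h1 : Tendsto (fun t : ℝ => φ (lowerU (s * Real.exp (-(2 * t))))) atTop
        (𝓝 (φ (lowerU 0))) := ((hcont.comp continuous_lowerU).tendsto 0).comp hlim
    have h2 := tendsto_nhds_unique (h1.congr heq) tendsto_const_nhds
    rw [lowerU_zero, hone] at h2
    exact h2.symm
  -- the unipotents generate
  suffices h : ∀ g : SL(2, ℝ), g 1 0 ≠ 0 → π g z = z by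
    rcases eq_or_ne (g 1 0) 0 with h0 | h0
    · have hdet := det2 g
      rw [h0, mul_zero, sub_zero] at hdet
      have h1 : (g * lowerU 1) 1 0 ≠ 0 := by
        simp only [mul_apply2, lowerU, mk2_coe, h0]
        simpa using right_ne_zero_of_mul (hdet.trans_ne one_ne_zero)
      have h2 := h _ h1
      rwa [rep_mul_apply, hlower] at h2
    · exact h g h0
  intro g hc
  have e : g = upperU ((g 0 0 - 1) / g 1 0) * lowerU (g 1 0) *
      upperU ((g 1 1 - 1) / g 1 0) := by
    have hdet := det2 g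
    apply ext2 <;> simp [upperU, lowerU] <;> field_simp <;> linarith
  rw [e, rep_mul_apply, rep_mul_apply, hz, hlower, hz]

variable [CompleteSpace H]

/-- The matrix coefficients along the diagonal tend to zero. -/
theorem tendsto_inner_diagA (hπ : ∀ v, Continuous fun g => π g v) {v : H}
    (hv : ∀ z, (∀ g, π g z = z) → ⟪v, z⟫_𝕜 = 0) (w : H) :
    Tendsto (fun t => ⟪π (diagA t) v, w⟫_𝕜) atTop (𝓝 0) := by
  rw [tendsto_iff_ultrafilter]
  intro F hF
  have hbd : ∀ w t, ‖⟪π (diagA t) v, w⟫_𝕜‖ ≤ ‖v‖ * ‖w‖ := fun w t =>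
    (norm_inner_le_norm _ _).trans_eq (by rw [LinearIsometryEquiv.norm_map])
  have hlim : ∀ w : H, ∃ L : 𝕜, Tendsto (fun t => ⟪π (diagA t) v, w⟫_𝕜) F (𝓝 L) ∧
      ‖L‖ ≤ ‖v‖ * ‖w‖ := by
    intro w
    obtain ⟨L, hL, hle⟩ := (ProperSpace.isCompact_closedBall (0 : 𝕜)
      (‖v‖ * ‖w‖)).ultrafilter_le_nhds (F.map fun t => ⟪π (diagA t) v, w⟫_𝕜) (by
        rw [le_principal_iff, Ultrafilter.mem_coe, Ultrafilter.mem_map]
        exact Eventually.of_forall fun t => by simpa using hbd w t)
    exact ⟨L, hle, by simpa using hL⟩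
  choose L hL hLb using hlim
  set ℓ : StrongDual 𝕜 H := LinearMap.mkContinuous
    { toFun := L
      map_add' := fun a b => tendsto_nhds_unique (hL (a + b))
        (by simpa [inner_add_right] using (hL a).add (hL b))
      map_smul' := fun c a => tendsto_nhds_unique (hL (c • a))
        (by simpa [inner_smul_right] using (hL a).const_mul c) } ‖v‖ hLb with hℓ
  set z := (InnerProductSpace.toDual 𝕜 H).symm ℓ with hzdef
  have hzi : ∀ w, ⟪z, w⟫_𝕜 = L w := fun w => by
    rw [hzdef, InnerProductSpace.toDual_symm_apply]; rfl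
  have hfix : ∀ g, π g z = z := by
    refine fixed_of_fixed_upperU π hπ fun s => ext_inner_right 𝕜 fun w => ?_
    rw [inner_rep, hzi, hzi]
    refine tendsto_nhds_unique (hL _) ?_
    have hu : Tendsto (fun t : ℝ => π (upperU (s * Real.exp (-(2 * t)))) v - v) atTop (𝓝 0) := by
      have hlim : Tendsto (fun t : ℝ => s * Real.exp (-(2 * t))) atTop (𝓝 0) := by
        simpa using ((Real.tendsto_exp_atBot.comp (tendsto_neg_atTop_atBot.comp
          (tendsto_id.const_mul_atTop two_pos))).const_mul s)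
      have := ((((hπ v).comp continuous_upperU).tendsto 0).comp hlim).sub_const v
      simpa [upperU_zero, rep_one_apply] using this
    have hd : Tendsto (fun t : ℝ => ⟪π (diagA t) v, π (upperU s)⁻¹ w⟫_𝕜 - ⟪π (diagA t) v, w⟫_𝕜)
        atTop (𝓝 0) := by
      refine squeeze_zero_norm (fun t => ?_) (by simpa using hu.norm.mul_const ‖w‖)
      rw [← inner_rep, ← rep_mul_apply, upperU_mul_diagA, rep_mul_apply, ← inner_sub_left,
        ← map_sub]
      exact (norm_inner_le_norm _ _).trans_eq (by rw [LinearIsometryEquiv.norm_map])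
    simpa using (hd.mono_left hF).add (hL w)
  have hz0 : z = 0 := by
    refine inner_self_eq_zero.1 ((hzi z).trans (tendsto_nhds_unique (hL z) ?_))
    refine tendsto_const_nhds.congr fun t => ?_
    rw [inner_rep π (diagA t), hfix, hv z hfix]
  have h := hL w
  rwa [← hzi w, hz0, inner_zero_left] at h

/-- **The theorem of Howe and Moore.** For a continuous unitary representation of `SL(2, ℝ)`
the matrix coefficients of a vector orthogonal to the fixed vectors vanish at infinity. -/
theorem tendsto_inner_cocompact (hπ : ∀ v, Continuous fun g => π g v) {v : H}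
    (hv : ∀ z, (∀ g, π g z = z) → ⟪v, z⟫_𝕜 = 0) (w : H) :
    Tendsto (fun g => ⟪π g v, w⟫_𝕜) (cocompact SL(2, ℝ)) (𝓝 0) := by
  choose k hk T hT0 l hl hdec using exists_kak
  rw [tendsto_iff_ultrafilter]
  intro F hF
  obtain ⟨κ, hκ, hkκ⟩ := isCompact_rotations.ultrafilter_le_nhds (F.map k) (by
    rw [le_principal_iff, Ultrafilter.mem_coe, Ultrafilter.mem_map]
    exact Eventually.of_forall hk)
  obtain ⟨ι, hι, hlι⟩ := isCompact_rotations.ultrafilter_le_nhds (F.map l) (by
    rw [le_principal_iff, Ultrafilter.mem_coe, Ultrafilter.mem_map]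
    exact Eventually.of_forall hl)
  have hTF : Tendsto T F atTop := by
    refine tendsto_atTop.2 fun R => ?_
    have hK : IsCompact ((fun p : SL(2, ℝ) × ℝ × SL(2, ℝ) => p.1 * diagA p.2.1 * p.2.2) ''
        rotations ×ˢ Set.Icc 0 R ×ˢ rotations) :=
      (isCompact_rotations.prod (isCompact_Icc.prod isCompact_rotations)).image
        ((continuous_fst.mul (continuous_diagA.comp (continuous_fst.comp continuous_snd))).mul
          (continuous_snd.comp continuous_snd))
    filter_upwards [hF hK.compl_mem_cocompact] with g hg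
    by_contra hlt
    exact hg ⟨(k g, T g, l g), ⟨hk g, ⟨hT0 g, (not_le.1 hlt).le⟩, hl g⟩, (hdec g).symm⟩
  have hv' : ∀ z, (∀ g, π g z = z) → ⟪π ι v, z⟫_𝕜 = 0 := fun z hz => by
    rw [inner_rep, hz, hv z hz]
  have hmain := (tendsto_inner_diagA π hπ hv' (π κ⁻¹ w)).comp hTF
  have h1 : Tendsto (fun g => π (l g) v - π ι v) F (𝓝 0) := by
    simpa using (((hπ v).tendsto ι).comp hlι).sub_const (π ι v)
  have h2 : Tendsto (fun g => π (k g)⁻¹ w - π κ⁻¹ w) F (𝓝 0) := by
    simpa using (((hπ w).tendsto κ⁻¹).comp ((continuous_inv.tendsto κ).comp hkκ)).sub_const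
      (π κ⁻¹ w)
  have hd : Tendsto (fun g => ⟪π g v, w⟫_𝕜 - ⟪π (diagA (T g)) (π ι v), π κ⁻¹ w⟫_𝕜) F (𝓝 0) := by
    refine squeeze_zero_norm (fun g => ?_)
      (by simpa using (h1.norm.mul_const ‖w‖).add (h2.norm.const_mul ‖v‖))
    have e : ⟪π g v, w⟫_𝕜 = ⟪π (diagA (T g)) (π (l g) v), π (k g)⁻¹ w⟫_𝕜 := by
      conv_lhs => rw [hdec g, rep_mul_apply, rep_mul_apply, inner_rep]
    rw [e, show ∀ a b c d : H, ⟪a, b⟫_𝕜 - ⟪c, d⟫_𝕜 = ⟪a - c, b⟫_𝕜 + ⟪c, b - d⟫_𝕜 from
      fun a b c d => by rw [inner_sub_left, inner_sub_right]; abel, ← map_sub]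
    refine (norm_add_le _ _).trans (add_le_add ((norm_inner_le_norm _ _).trans_eq ?_)
      ((norm_inner_le_norm _ _).trans_eq ?_))
    · rw [LinearIsometryEquiv.norm_map, LinearIsometryEquiv.norm_map]
    · simp
  simpa using hd.add hmain

end FA.HoweMoore
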